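/-
P-DS / ES1 row 614 (ES1-C1), helper12.

`HeckeInputsGen L F₀ p` for every level field `F₀ ⊆ ℚ((q))` which is finitely generated and
algebraic over `ℚ(j)`, and every algebraically closed field `L` of characteristic `0`.

Route (generic twin of ES-C1): the compositum `F₀ · V_p(F₀)` base changed to `L` is generated
over `L` by finitely many elements which are algebraic over `L(j)`; hence it is a function field
of one variable over `L`, both degeneracy maps are finite (`Fermat.Agent.H54`), principal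
divisors exist (`Fermat.Agent.H16`) and the fundamental identity and the norm formula hold
(`Fermat.Agent.H49`).
-/
import Fermat.Agent.H29.ES1.Hecke
import Fermat.Agent.H49.ES.HeckeInputs
import Fermat.Agent.H54.EsC.FieldFinite
import Fermat.Agent.H88.Generation
import Fermat.Agent.H17.HeckeDataComplex
import Fermat.Agent.H74.IgusaPolyJ
import Fermat.Agent.H16.FFPrincipal

set_option autoImplicit false

noncomputable section

open ModularCurve IntermediateField AlgebraicCurve

namespace Fermat.Agent.H12.ES1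

open Fermat.Agent.H29.ES1

/-! ### The relative algebraic closure of `L(j)` in `L((q))` -/

section AlgJ

variable (L : Type*) [Field L]

/-- The relative algebraic closure of `L(j)` in `L((q))`, as a subfield of `L((q))`. -/
def algJ : Subfield (LaurentSeries L) :=
  (algebraicClosure ↥(L⟮jqModC L⟯) (LaurentSeries L)).toSubfield

variable {L}

theorem mem_algJ_iff {x : LaurentSeries L} :
    x ∈ algJ L ↔ IsIntegral ↥(L⟮jqModC L⟯) x := Iff.rfl

theorem adjoin_le_algJ {x : LaurentSeries L} (hx : x ∈ L⟮jqModC L⟯) : x ∈ algJ L := by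
  rw [mem_algJ_iff]
  exact isIntegral_algebraMap (x := (⟨x, hx⟩ : ↥(L⟮jqModC L⟯)))

theorem algebraMap_mem_algJ (c : L) : algebraMap L (LaurentSeries L) c ∈ algJ L :=
  adjoin_le_algJ ((L⟮jqModC L⟯).algebraMap_mem c)

theorem jqModC_mem_algJ : jqModC L ∈ algJ L :=
  adjoin_le_algJ (mem_adjoin_simple_self L _)

/-- Transitivity: an element integral over the relative algebraic closure lies in it. -/
theorem mem_algJ_of_isIntegral {x : LaurentSeries L}
    (hx : IsIntegral ↥(algebraicClosure ↥(L⟮jqModC L⟯) (LaurentSeries L)) x) : x ∈ algJ L := by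
  rw [mem_algJ_iff]
  have hint : Algebra.IsIntegral ↥(L⟮jqModC L⟯)
      ↥(algebraicClosure ↥(L⟮jqModC L⟯) (LaurentSeries L)) :=
    ⟨fun a => (isIntegral_algebraMap_iff
      (algebraMap ↥(algebraicClosure ↥(L⟮jqModC L⟯) (LaurentSeries L))
        (LaurentSeries L)).injective).1 a.2⟩
  exact isIntegral_trans (R := ↥(L⟮jqModC L⟯))
    (A := ↥(algebraicClosure ↥(L⟮jqModC L⟯) (LaurentSeries L))) x hx

/-- A ring endomorphism of `L((q))` fixing the constants and mapping `j` to an element algebraic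
over `L(j)` preserves the relative algebraic closure of `L(j)`. -/
theorem map_mem_algJ (V : LaurentSeries L →+* LaurentSeries L)
    (hc : ∀ c : L, V (algebraMap L (LaurentSeries L) c) = algebraMap L (LaurentSeries L) c)
    (hj : V (jqModC L) ∈ algJ L) {x : LaurentSeries L} (hx : x ∈ algJ L) : V x ∈ algJ L := by
  have hK : ∀ a : LaurentSeries L, a ∈ L⟮jqModC L⟯ → V a ∈ algJ L := by
    intro a ha
    induction ha using IntermediateField.adjoin_induction with
    | mem y hy =>
      rw [Set.mem_singleton_iff] at hy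
      subst hy
      exact hj
    | algebraMap c => rw [hc]; exact algebraMap_mem_algJ c
    | add a b _ _ iha ihb => rw [map_add]; exact add_mem iha ihb
    | inv a _ iha => rw [map_inv₀]; exact inv_mem iha
    | mul a b _ _ iha ihb => rw [map_mul]; exact mul_mem iha ihb
  let φ : ↥(L⟮jqModC L⟯) →+* ↥(algebraicClosure ↥(L⟮jqModC L⟯) (LaurentSeries L)) :=
    { toFun := fun a => ⟨V a.1, hK a.1 a.2⟩
      map_one' := Subtype.ext (map_one V)
      map_mul' := fun a b => Subtype.ext (map_mul V a.1 b.1)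
      map_zero' := Subtype.ext (map_zero V)
      map_add' := fun a b => Subtype.ext (map_add V a.1 b.1) }
  refine mem_algJ_of_isIntegral ?_
  exact IsIntegral.map_of_comp_eq φ V (by ext; rfl) ((mem_algJ_iff).1 hx)

end AlgJ

/-! ### Base change of coefficients `ℚ → L` -/

section BaseChange

variable (L : Type*) [Field L] [Algebra ℚ L]

theorem es1c_coeffEmb_jq : coeffEmb L jq = jqModC L := by
  rw [coeffEmb, ← jqModC_rat, coeffMap_jqModC]

theorem es1c_coeffEmb_algebraMap (c : ℚ) :
    coeffEmb L (algebraMap ℚ (LaurentSeries ℚ) c) =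
      algebraMap L (LaurentSeries L) (algebraMap ℚ L c) := by
  rw [algebraMap_laurentSeries_eq_single, algebraMap_laurentSeries_eq_single, coeffEmb,
    coeffMap_single]

/-- Base change maps `ℚ(j)` into `L(j)`. -/
theorem coeffEmb_mem_adjoin_jq {a : LaurentSeries ℚ}
    (ha : a ∈ (ℚ⟮jq⟯ : IntermediateField ℚ (LaurentSeries ℚ))) :
    coeffEmb L a ∈ L⟮jqModC L⟯ := by
  induction ha using IntermediateField.adjoin_induction with
  | mem y hy =>
    rw [Set.mem_singleton_iff] at hy
    subst hy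
    rw [es1c_coeffEmb_jq]
    exact mem_adjoin_simple_self L _
  | algebraMap c =>
    rw [es1c_coeffEmb_algebraMap]
    exact (L⟮jqModC L⟯).algebraMap_mem _
  | add a b _ _ iha ihb => rw [map_add]; exact add_mem iha ihb
  | inv a _ iha => rw [map_inv₀]; exact inv_mem iha
  | mul a b _ _ iha ihb => rw [map_mul]; exact mul_mem iha ihb

/-- The ring homomorphism `ℚ(j) → L(j)` induced by base change of coefficients. -/
def baseHom : ↥(ℚ⟮jq⟯ : IntermediateField ℚ (LaurentSeries ℚ)) →+* ↥(L⟮jqModC L⟯) where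
  toFun a := ⟨coeffEmb L a.1, coeffEmb_mem_adjoin_jq L a.2⟩
  map_one' := Subtype.ext (map_one (coeffEmb L))
  map_mul' a b := Subtype.ext (map_mul (coeffEmb L) a.1 b.1)
  map_zero' := Subtype.ext (map_zero (coeffEmb L))
  map_add' a b := Subtype.ext (map_add (coeffEmb L) a.1 b.1)

/-- The base change of a series algebraic over `ℚ(j)` is algebraic over `L(j)`. -/
theorem coeffEmb_mem_algJ {y : LaurentSeries ℚ}
    (hy : IsIntegral ↥(ℚ⟮jq⟯ : IntermediateField ℚ (LaurentSeries ℚ)) y) :
    coeffEmb L y ∈ algJ L := by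
  rw [mem_algJ_iff]
  exact IsIntegral.map_of_comp_eq (baseHom L) (coeffEmb L) (by ext; rfl) hy

variable (p : ℕ) [NeZero p]

omit [Algebra ℚ L] in
theorem qExpand_algebraMap (c : L) :
    qExpand L p (algebraMap L (LaurentSeries L) c) = algebraMap L (LaurentSeries L) c := by
  rw [algebraMap_laurentSeries_eq_single, qExpand_single, mul_zero]

/-- `j(q^p)` is algebraic over `L(j)`. -/
theorem qExpand_jqModC_mem_algJ : qExpand L p (jqModC L) ∈ algJ L := by
  have h := Fermat.Agent.H88.isIntegral_jd Fermat.Agent.H17.hasHeckeData_complex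
    (ℚ⟮jq⟯ : IntermediateField ℚ (LaurentSeries ℚ)) (mem_adjoin_simple_self ℚ jq) p
    (NeZero.ne p)
  have h2 := coeffEmb_mem_algJ L h
  have e : coeffEmb L (Fermat.Agent.H88.jd ℚ p) = qExpand L p (jqModC L) := by
    rw [Fermat.Agent.H88.jd_rat, es1_coeffEmb_qExpand, es1c_coeffEmb_jq]
  rwa [e] at h2

/-- `V_p : q ↦ q^p` preserves the relative algebraic closure of `L(j)` in `L((q))`. -/
theorem qExpand_mem_algJ {x : LaurentSeries L} (hx : x ∈ algJ L) : qExpand L p x ∈ algJ L :=
  map_mem_algJ (qExpand L p) (qExpand_algebraMap L p) (qExpand_jqModC_mem_algJ L p) hx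

end BaseChange

/-! ### Generators of the base change of the Hecke field -/

section Generators

variable (L : Type*) [Field L] [Algebra ℚ L] (p : ℕ) [NeZero p]

/-- The generating set of `L · F₀ · V_p(F₀)` attached to a generating set `S` of `F₀`. -/
def genSet (S : Set (LaurentSeries ℚ)) : Set (LaurentSeries L) :=
  ⇑(coeffEmb L) '' (S ∪ ⇑(qExpand ℚ p) '' S)

theorem genSet_finite {S : Set (LaurentSeries ℚ)} (hS : S.Finite) : (genSet L p S).Finite :=
  (hS.union (hS.image _)).image _

theorem coeffEmb_mem_adjoin_genSet (S : Set (LaurentSeries ℚ)) {y : LaurentSeries ℚ}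
    (hy : y ∈ IntermediateField.adjoin ℚ S) :
    coeffEmb L y ∈ IntermediateField.adjoin L (genSet L p S) := by
  induction hy using IntermediateField.adjoin_induction with
  | mem x hx => exact IntermediateField.subset_adjoin L _ ⟨x, Or.inl hx, rfl⟩
  | algebraMap c =>
    rw [es1c_coeffEmb_algebraMap]
    exact IntermediateField.algebraMap_mem _ _
  | add a b _ _ iha ihb => rw [map_add]; exact add_mem iha ihb
  | inv a _ iha => rw [map_inv₀]; exact inv_mem iha
  | mul a b _ _ iha ihb => rw [map_mul]; exact mul_mem iha ihb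

theorem coeffEmb_qExpand_mem_adjoin_genSet (S : Set (LaurentSeries ℚ)) {y : LaurentSeries ℚ}
    (hy : y ∈ IntermediateField.adjoin ℚ S) :
    coeffEmb L (qExpand ℚ p y) ∈ IntermediateField.adjoin L (genSet L p S) := by
  induction hy using IntermediateField.adjoin_induction with
  | mem x hx => exact IntermediateField.subset_adjoin L _ ⟨qExpand ℚ p x, Or.inr ⟨x, hx, rfl⟩, rfl⟩
  | algebraMap c =>
    rw [qExpand_algebraMap ℚ p c, es1c_coeffEmb_algebraMap]
    exact IntermediateField.algebraMap_mem _ _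
  | add a b _ _ iha ihb => rw [map_add, map_add]; exact add_mem iha ihb
  | inv a _ iha => rw [map_inv₀, map_inv₀]; exact inv_mem iha
  | mul a b _ _ iha ihb => rw [map_mul, map_mul]; exact mul_mem iha ihb

/-- The base change of the Hecke field is generated by `genSet`. -/
theorem laurentBaseChange_heckeField_eq (S : Set (LaurentSeries ℚ)) :
    laurentBaseChange L (heckeField (IntermediateField.adjoin ℚ S) p) =
      IntermediateField.adjoin L (genSet L p S) := by
  apply le_antisymm
  · have key : ∀ y : LaurentSeries ℚ, y ∈ heckeField (IntermediateField.adjoin ℚ S) p →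
        coeffEmb L y ∈ IntermediateField.adjoin L (genSet L p S) := by
      intro y hy
      rw [heckeField] at hy
      induction hy using IntermediateField.adjoin_induction with
      | mem x hx =>
        rcases hx with hx | ⟨z, hz, rfl⟩
        · exact coeffEmb_mem_adjoin_genSet L p S hx
        · exact coeffEmb_qExpand_mem_adjoin_genSet L p S hz
      | algebraMap c =>
        rw [es1c_coeffEmb_algebraMap]
        exact IntermediateField.algebraMap_mem _ _
      | add a b _ _ iha ihb => rw [map_add]; exact add_mem iha ihb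
      | inv a _ iha => rw [map_inv₀]; exact inv_mem iha
      | mul a b _ _ iha ihb => rw [map_mul]; exact mul_mem iha ihb
    rw [laurentBaseChange, IntermediateField.adjoin_le_iff]
    rintro _ ⟨y, hy, rfl⟩
    exact key y hy
  · rw [IntermediateField.adjoin_le_iff]
    rintro _ ⟨y, hy, rfl⟩
    refine coeffEmb_mem_laurentBaseChange L ?_
    rcases hy with hy | ⟨z, hz, rfl⟩
    · exact le_heckeField _ p (IntermediateField.subset_adjoin ℚ S hy)
    · exact qExpand_mem_heckeField _ p (IntermediateField.subset_adjoin ℚ S hz)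

/-- All generators are algebraic over `L(j)`. -/
theorem genSet_subset_algJ (S : Set (LaurentSeries ℚ))
    (halg : ∀ y ∈ S, IsIntegral ↥(ℚ⟮jq⟯ : IntermediateField ℚ (LaurentSeries ℚ)) y)
    {t : LaurentSeries L} (ht : t ∈ genSet L p S) : t ∈ algJ L := by
  obtain ⟨y, hy, rfl⟩ := ht
  rcases hy with hy | ⟨z, hz, rfl⟩
  · exact coeffEmb_mem_algJ L (halg y hy)
  · rw [es1_coeffEmb_qExpand]
    exact qExpand_mem_algJ L p (coeffEmb_mem_algJ L (halg z hz))

end Generators

/-! ### The function field `L · F₀ · V_p(F₀)` and the Hecke inputs -/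

section Main

variable (L : Type*) [Field L]

/-- `L(j)` inside `L((q))` and inside an intermediate field containing `j` have the same
elements. -/
theorem exists_mem_adjoin_of_mem (F₁ : IntermediateField L (LaurentSeries L))
    (hj : jqModC L ∈ F₁) {a : LaurentSeries L} (ha : a ∈ L⟮jqModC L⟯) :
    ∃ h : a ∈ F₁, (⟨a, h⟩ : ↥F₁) ∈ L⟮(⟨jqModC L, hj⟩ : ↥F₁)⟯ := by
  induction ha using IntermediateField.adjoin_induction with
  | mem y hy =>
    rw [Set.mem_singleton_iff] at hy
    subst hy
    exact ⟨hj, mem_adjoin_simple_self L _⟩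
  | algebraMap c =>
    refine ⟨F₁.algebraMap_mem c, ?_⟩
    have e : (⟨algebraMap L (LaurentSeries L) c, F₁.algebraMap_mem c⟩ : ↥F₁)
        = algebraMap L ↥F₁ c := Subtype.ext rfl
    rw [e]
    exact (L⟮(⟨jqModC L, hj⟩ : ↥F₁)⟯).algebraMap_mem c
  | add a b _ _ iha ihb =>
    obtain ⟨h1, h1'⟩ := iha
    obtain ⟨h2, h2'⟩ := ihb
    refine ⟨add_mem h1 h2, ?_⟩
    have e : (⟨a + b, add_mem h1 h2⟩ : ↥F₁) = ⟨a, h1⟩ + ⟨b, h2⟩ := Subtype.ext rfl
    rw [e]
    exact add_mem h1' h2'
  | inv a _ iha =>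
    obtain ⟨h1, h1'⟩ := iha
    refine ⟨inv_mem h1, ?_⟩
    have e : (⟨a⁻¹, inv_mem h1⟩ : ↥F₁) = (⟨a, h1⟩ : ↥F₁)⁻¹ := Subtype.ext rfl
    rw [e]
    exact inv_mem h1'
  | mul a b _ _ iha ihb =>
    obtain ⟨h1, h1'⟩ := iha
    obtain ⟨h2, h2'⟩ := ihb
    refine ⟨mul_mem h1 h2, ?_⟩
    have e : (⟨a * b, mul_mem h1 h2⟩ : ↥F₁) = ⟨a, h1⟩ * ⟨b, h2⟩ := Subtype.ext rfl
    rw [e]
    exact mul_mem h1' h2'

/-- The ring homomorphism from `L(j) ⊆ L((q))` to `L(j) ⊆ F₁`. -/
def adjoinHom (F₁ : IntermediateField L (LaurentSeries L)) (hj : jqModC L ∈ F₁) :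
    ↥(L⟮jqModC L⟯) →+* ↥(L⟮(⟨jqModC L, hj⟩ : ↥F₁)⟯) where
  toFun a := ⟨⟨a.1, (exists_mem_adjoin_of_mem L F₁ hj a.2).1⟩,
    (exists_mem_adjoin_of_mem L F₁ hj a.2).2⟩
  map_one' := rfl
  map_mul' _ _ := rfl
  map_zero' := rfl
  map_add' _ _ := rfl

/-- Algebraicity over `L(j) ⊆ L((q))` is algebraicity over `L(j) ⊆ F₁`. -/
theorem isAlgebraic_of_mem_algJ (F₁ : IntermediateField L (LaurentSeries L))
    (hj : jqModC L ∈ F₁) {t : LaurentSeries L} (ht : t ∈ algJ L) :
    IsAlgebraic ↥(L⟮(⟨jqModC L, hj⟩ : ↥F₁)⟯) t := by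
  have h := IsIntegral.map_of_comp_eq (adjoinHom L F₁ hj) (RingHom.id (LaurentSeries L))
    (by ext; rfl) ((mem_algJ_iff).1 ht)
  exact h.isAlgebraic

/-- `j` is transcendental in every intermediate field of `L((q))` containing it. -/
theorem transcendental_jElt (F₁ : IntermediateField L (LaurentSeries L))
    (hj : jqModC L ∈ F₁) : Transcendental L (⟨jqModC L, hj⟩ : ↥F₁) := by
  intro h
  refine Fermat.Agent.H74.transcendental_jq L ?_
  exact (isAlgebraic_algebraMap_iff (algebraMap ↥F₁ (LaurentSeries L)).injective).mpr h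

end Main

section Final

set_option maxSynthPendingDepth 3
set_option synthInstance.maxHeartbeats 400000
set_option maxHeartbeats 1600000

variable (L : Type*) [Field L] [Algebra ℚ L] (p : ℕ) [NeZero p]

theorem jqModC_mem_laurentBaseChange {F₀ : IntermediateField ℚ (LaurentSeries ℚ)}
    (hj : jq ∈ F₀) : jqModC L ∈ laurentBaseChange L F₀ := by
  rw [← es1c_coeffEmb_jq]
  exact coeffEmb_mem_laurentBaseChange L hj

theorem jqModC_mem_heckeField {F₀ : IntermediateField ℚ (LaurentSeries ℚ)}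
    (hj : jq ∈ F₀) : jqModC L ∈ laurentBaseChange L (heckeField F₀ p) :=
  jqModC_mem_laurentBaseChange L (le_heckeField F₀ p hj)

/-- `j` as an element of the base change of the level field. -/
def jSmall {F₀ : IntermediateField ℚ (LaurentSeries ℚ)} (hj : jq ∈ F₀) :
    ↥(laurentBaseChange L F₀) :=
  ⟨jqModC L, jqModC_mem_laurentBaseChange L hj⟩

/-- `j` as an element of the base change of the Hecke field. -/
def jBig {F₀ : IntermediateField ℚ (LaurentSeries ℚ)} (hj : jq ∈ F₀) :
    ↥(laurentBaseChange L (heckeField F₀ p)) :=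
  ⟨jqModC L, jqModC_mem_heckeField L p hj⟩

theorem transcendental_jSmall {F₀ : IntermediateField ℚ (LaurentSeries ℚ)} (hj : jq ∈ F₀) :
    Transcendental L (jSmall L hj) :=
  transcendental_jElt L (laurentBaseChange L F₀) (jqModC_mem_laurentBaseChange L hj)

/-- The base change of the Hecke field of a finitely generated algebraic extension `F₀` of
`ℚ(j)` is finite over `L(j)`. -/
theorem finiteDimensional_heckeField (F₀ : IntermediateField ℚ (LaurentSeries ℚ))
    (hj : jq ∈ F₀) (hfg : F₀.FG)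
    (halg : ∀ y ∈ F₀, IsIntegral ↥(ℚ⟮jq⟯ : IntermediateField ℚ (LaurentSeries ℚ)) y) :
    FiniteDimensional ↥(L⟮jBig L p hj⟯) ↥(laurentBaseChange L (heckeField F₀ p)) := by
  obtain ⟨S, hS⟩ := hfg
  subst hS
  refine Fermat.Agent.H54.finiteDimensional_adjoin_simple_of_generators
    (laurentBaseChange L (heckeField (IntermediateField.adjoin ℚ (S : Set (LaurentSeries ℚ))) p))
    _ (genSet L p (S : Set (LaurentSeries ℚ))) (genSet_finite L p S.finite_toSet)
    (laurentBaseChange_heckeField_eq L p _) (fun t ht => ?_)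
  refine isAlgebraic_of_mem_algJ L _ _ (genSet_subset_algJ L p _ (fun y hy => ?_) ht)
  exact halg y (IntermediateField.subset_adjoin ℚ _ hy)

/-- Both generic degeneracy maps are finite. -/
theorem finiteAlong_alphaGen (F₀ : IntermediateField ℚ (LaurentSeries ℚ))
    (hj : jq ∈ F₀) (hfg : F₀.FG)
    (halg : ∀ y ∈ F₀, IsIntegral ↥(ℚ⟮jq⟯ : IntermediateField ℚ (LaurentSeries ℚ)) y) :
    FiniteAlong L (alphaGen L F₀ p) :=
  Fermat.Agent.H54.finite_along_of_transcendental (alphaGen L F₀ p)
    (transcendental_jSmall L hj) (finiteDimensional_heckeField L p F₀ hj hfg halg)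

theorem finiteAlong_betaGen (F₀ : IntermediateField ℚ (LaurentSeries ℚ))
    (hj : jq ∈ F₀) (hfg : F₀.FG)
    (halg : ∀ y ∈ F₀, IsIntegral ↥(ℚ⟮jq⟯ : IntermediateField ℚ (LaurentSeries ℚ)) y) :
    FiniteAlong L (betaGen L F₀ p) :=
  Fermat.Agent.H54.finite_along_of_transcendental (betaGen L F₀ p)
    (transcendental_jSmall L hj) (finiteDimensional_heckeField L p F₀ hj hfg halg)

/-- The base change of the Hecke field has principal divisors. -/
theorem hasPrincipalDivisors_heckeField [IsAlgClosed L]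
    (F₀ : IntermediateField ℚ (LaurentSeries ℚ))
    (hj : jq ∈ F₀) (hfg : F₀.FG)
    (halg : ∀ y ∈ F₀, IsIntegral ↥(ℚ⟮jq⟯ : IntermediateField ℚ (LaurentSeries ℚ)) y) :
    HasPrincipalDivisors L ↥(laurentBaseChange L (heckeField F₀ p)) := by
  have hfin := finiteDimensional_heckeField L p F₀ hj hfg halg
  have h0 : CharZero L := algebraRat.charZero L
  have h1 : CharZero ↥(L⟮jBig L p hj⟯) :=
    charZero_of_injective_algebraMap (algebraMap L ↥(L⟮jBig L p hj⟯)).injective
  have hsep : Algebra.IsSeparable ↥(L⟮jBig L p hj⟯)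
      ↥(laurentBaseChange L (heckeField F₀ p)) := inferInstance
  exact Fermat.Agent.H16.ffb_hasPrincipalDivisors (jBig L p hj)

/-- **ES1-C1.**  The Hecke inputs for a level field `F₀` which is finitely generated and
algebraic over `ℚ(j)`. -/
theorem heckeInputsGen [IsAlgClosed L] (F₀ : IntermediateField ℚ (LaurentSeries ℚ))
    (hj : jq ∈ F₀) (hfg : F₀.FG)
    (halg : ∀ y ∈ F₀, IsIntegral ↥(ℚ⟮jq⟯ : IntermediateField ℚ (LaurentSeries ℚ)) y) :
    HeckeInputsGen L F₀ p := by
  have h0 : CharZero L := algebraRat.charZero L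
  have h1 : CharZero ↥(laurentBaseChange L F₀) :=
    charZero_of_injective_algebraMap
      (FaithfulSMul.algebraMap_injective L ↥(laurentBaseChange L F₀))
  have hPD := hasPrincipalDivisors_heckeField L p F₀ hj hfg halg
  have hfinα := finiteAlong_alphaGen L p F₀ hj hfg halg
  have hfinβ := finiteAlong_betaGen L p F₀ hj hfg halg
  have hα := Fermat.Agent.H49.isIntegral_of_finiteAlong _ hfinα
  have hβ := Fermat.Agent.H49.isIntegral_of_finiteAlong _ hfinβ
  exact ⟨hα, hβ, hPD, hfinα, Fermat.Agent.H49.fundamentalIdentityAlong_of_finite _ hβ hfinβ,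
    Fermat.Agent.H49.normFormulaAlong_of_finite _ hfinα⟩

end Final

/-! ### The same with the hypothesis "`F₀` is finite over `ℚ(j)`" -/

section Corollary

set_option maxSynthPendingDepth 3
set_option synthInstance.maxHeartbeats 400000
set_option maxHeartbeats 1600000

variable (F₀ : IntermediateField ℚ (LaurentSeries ℚ)) (hj : jq ∈ F₀)

/-- The elements of `ℚ(j) ⊆ F₀` lie in `ℚ(j) ⊆ ℚ((q))`. -/
theorem coe_mem_adjoin_jq {a : ↥F₀} (ha : a ∈ ℚ⟮(⟨jq, hj⟩ : ↥F₀)⟯) :
    (a : LaurentSeries ℚ) ∈ (ℚ⟮jq⟯ : IntermediateField ℚ (LaurentSeries ℚ)) := by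
  induction ha using IntermediateField.adjoin_induction with
  | mem y hy =>
    rw [Set.mem_singleton_iff] at hy
    subst hy
    exact mem_adjoin_simple_self ℚ _
  | algebraMap c =>
    rw [eq_ratCast (algebraMap ℚ ↥F₀) c]
    have e : ((c : ↥F₀) : LaurentSeries ℚ) = (c : LaurentSeries ℚ) :=
      map_ratCast (algebraMap ↥F₀ (LaurentSeries ℚ)) c
    rw [e]
    exact SubfieldClass.ratCast_mem _ c
  | add a b _ _ iha ihb => exact add_mem iha ihb
  | inv a _ iha => exact inv_mem iha
  | mul a b _ _ iha ihb => exact mul_mem iha ihb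

/-- The ring homomorphism from `ℚ(j) ⊆ F₀` to `ℚ(j) ⊆ ℚ((q))`. -/
def adjoinHomRat :
    ↥(ℚ⟮(⟨jq, hj⟩ : ↥F₀)⟯) →+* ↥(ℚ⟮jq⟯ : IntermediateField ℚ (LaurentSeries ℚ)) where
  toFun a := ⟨(a.1 : LaurentSeries ℚ), coe_mem_adjoin_jq F₀ hj a.2⟩
  map_one' := rfl
  map_mul' _ _ := rfl
  map_zero' := rfl
  map_add' _ _ := rfl

/-- A level field which is finite over `ℚ(j)` is algebraic over `ℚ(j)`. -/
theorem isIntegral_of_finiteDimensional
    (hfin : FiniteDimensional ↥(ℚ⟮(⟨jq, hj⟩ : ↥F₀)⟯) ↥F₀) :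
    ∀ y ∈ F₀, IsIntegral ↥(ℚ⟮jq⟯ : IntermediateField ℚ (LaurentSeries ℚ)) y := by
  intro y hy
  have h : IsIntegral ↥(ℚ⟮(⟨jq, hj⟩ : ↥F₀)⟯) (⟨y, hy⟩ : ↥F₀) :=
    Algebra.IsIntegral.isIntegral _
  exact IsIntegral.map_of_comp_eq (adjoinHomRat F₀ hj) (algebraMap ↥F₀ (LaurentSeries ℚ))
    (by ext; rfl) h

/-- A level field which is finite over `ℚ(j)` is finitely generated. -/
theorem fg_of_finiteDimensional
    (hfin : FiniteDimensional ↥(ℚ⟮(⟨jq, hj⟩ : ↥F₀)⟯) ↥F₀) : F₀.FG := by
  rw [← IntermediateField.essFiniteType_iff]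
  have h1 : Algebra.EssFiniteType ℚ ↥(ℚ⟮(⟨jq, hj⟩ : ↥F₀)⟯) :=
    IntermediateField.essFiniteType_iff.mpr
      (IntermediateField.fg_adjoin_of_finite (Set.finite_singleton _))
  have h2 : Algebra.EssFiniteType ↥(ℚ⟮(⟨jq, hj⟩ : ↥F₀)⟯) ↥F₀ := inferInstance
  have h3 := Algebra.EssFiniteType.comp ℚ ↥(ℚ⟮(⟨jq, hj⟩ : ↥F₀)⟯) ↥F₀
  convert h3
  · rfl
  · exact Subsingleton.elim _ _

/-- **ES1-C1**, for a level field `F₀` which is finite over `ℚ(j)`. -/
theorem heckeInputsGen_of_finiteDimensional (L : Type*) [Field L] [Algebra ℚ L]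
    [IsAlgClosed L] (p : ℕ) [NeZero p]
    (hfin : FiniteDimensional ↥(ℚ⟮(⟨jq, hj⟩ : ↥F₀)⟯) ↥F₀) :
    HeckeInputsGen L F₀ p :=
  heckeInputsGen L p F₀ hj (fg_of_finiteDimensional F₀ hj hfin)
    (isIntegral_of_finiteDimensional F₀ hj hfin)

/-- The base change of a level field which is finite over `ℚ(j)` is finite over `L(j)`. -/
theorem finiteDimensional_heckeField_of_finiteDimensional (L : Type*) [Field L] [Algebra ℚ L]
    (p : ℕ) [NeZero p]
    (hfin : FiniteDimensional ↥(ℚ⟮(⟨jq, hj⟩ : ↥F₀)⟯) ↥F₀) :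
    FiniteDimensional ↥(L⟮jBig L p hj⟯) ↥(laurentBaseChange L (heckeField F₀ p)) :=
  finiteDimensional_heckeField L p F₀ hj (fg_of_finiteDimensional F₀ hj hfin)
    (isIntegral_of_finiteDimensional F₀ hj hfin)

end Corollary

end Fermat.Agent.H12.ES1

end
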